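import Mathlib

set_option autoImplicit false
open scoped MatrixGroups

namespace Fermat.Agent.H8

/-- The index of `Γ₀(2)` in `SL(2, ℤ)` is at most `4` (it is in fact `3`): the first column
mod `2` separates left cosets. -/
theorem Gamma0_two_index_le : (CongruenceSubgroup.Gamma0 2).index ≤ 4 := by
  classical
  let φ : SL(2, ℤ) → ZMod 2 × ZMod 2 := fun A => (((A 0 0 : ℤ) : ZMod 2), ((A 1 0 : ℤ) : ZMod 2))
  have hφ : ∀ A B : SL(2, ℤ), φ A = φ B → A⁻¹ * B ∈ CongruenceSubgroup.Gamma0 2 := by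
    intro A B h
    rw [CongruenceSubgroup.Gamma0_mem]
    have h0 : ((A 0 0 : ℤ) : ZMod 2) = ((B 0 0 : ℤ) : ZMod 2) := congrArg Prod.fst h
    have h1 : ((A 1 0 : ℤ) : ZMod 2) = ((B 1 0 : ℤ) : ZMod 2) := congrArg Prod.snd h
    have : (A⁻¹ * B) 1 0 = -(A 1 0) * (B 0 0) + (A 0 0) * (B 1 0) := by
      rw [Matrix.SpecialLinearGroup.coe_mul, Matrix.SpecialLinearGroup.coe_inv,
        Matrix.adjugate_fin_two]
      simp [Matrix.mul_apply, Fin.sum_univ_two]
    rw [this]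
    push_cast
    rw [h0, h1]
    ring
  let ψ : SL(2, ℤ) ⧸ CongruenceSubgroup.Gamma0 2 → ZMod 2 × ZMod 2 := fun q => φ q.out
  have hψ : Function.Injective ψ := by
    intro q1 q2 h
    have := hφ _ _ h
    rw [← QuotientGroup.eq] at this
    simpa using this
  calc (CongruenceSubgroup.Gamma0 2).index
      = Nat.card (SL(2, ℤ) ⧸ CongruenceSubgroup.Gamma0 2) := rfl
    _ ≤ Nat.card (ZMod 2 × ZMod 2) := Nat.card_le_card_of_injective ψ hψ
    _ = 4 := by simp

end Fermat.Agent.H8
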