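import Mathlib
import Fermat.Prelude.Thm_ModularForm_sturm_bound_Gamma0
import Fermat.Prelude.Thm_CongruenceSubgroup_one_mem_strictPeriods_Gamma0

set_option autoImplicit false
open CuspForm ModularFormClass UpperHalfPlane ModularForm

namespace Fermat.Agent.H8

theorem Gamma0_one_eq_top : CongruenceSubgroup.Gamma0 1 = ⊤ := by
  ext A
  simp only [CongruenceSubgroup.Gamma0_mem, Subgroup.mem_top, iff_true]
  exact Subsingleton.elim _ _

/-- Weight 2 cusp forms on `Γ₀(N)` vanish as soon as the index of `Γ₀(N)` is `< 6`
(Sturm bound `⌊2·index/12⌋ = 0`, and the constant coefficient of a cusp form is zero). -/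
theorem cusp_weight_two_eq_zero_of_index_lt (N : ℕ) [NeZero N]
    (hN : (CongruenceSubgroup.Gamma0 N).index < 6)
    (f : CuspForm (CongruenceSubgroup.Gamma0 N) 2) : f = 0 := by
  have hF := ModularForm.sturm_bound_Gamma0 N (k := 2) (CuspForm.toModularFormₗ f) (by
    intro n hn
    have h0 : ((2 : ℤ) * ((CongruenceSubgroup.Gamma0 N).index : ℤ)).toNat / 12 = 0 := by
      have : ((2 : ℤ) * ((CongruenceSubgroup.Gamma0 N).index : ℤ)).toNat
          = 2 * (CongruenceSubgroup.Gamma0 N).index := by
        omega
      rw [this]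
      omega
    rw [h0] at hn
    have hn0 : n = 0 := by omega
    subst hn0
    have := CuspFormClass.qExpansion_coeff_zero (h := 1) f one_pos
      (CongruenceSubgroup.one_mem_strictPeriods_Gamma0 N)
    exact this)
  apply CuspForm.toModularFormₗ_injective
  rw [hF, map_zero]

end Fermat.Agent.H8
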